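import Fermat.Agent.S55.Level.LES
import Fermat.Agent.S56.GW.EC.Sh.HS

/-!
# [GW-LEC] / [LEC-FIN], abstract part (prefix `s56lf_`)

`G` a group with a level system `L`, `W` a normal level.  If the level cohomology `lvH1`, `lvH2`
of the subgroup `W` is finite for every finite `p`-torsion `G`-module on which `W` acts
trivially, then the same holds for the level cohomology of `G` itself.

Proof: `N ↪ I := Coind_W^G N ↠ Q := I/N`; `W` acts trivially on `I` and `Q`, both are finite and
killed by `p`; Shapiro gives `lvHⁱ(G, I) ≅ lvHⁱ(W, N)`; the long exact sequence gives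
`ker (H¹(N) → H¹(I)) = im δ⁰` (finite, `H⁰(Q) ⊆ Q`), and `ker (H²(N) → H²(I)) = im δ¹`
(finite by the first step applied to `Q`).
-/

set_option autoImplicit false

namespace Fermat.Agent.S56

open Fermat.Agent.S55

/-- A group with a finite "kernel" and a finite target is finite. -/
theorem s56lf_finite_of_ker {A B K : Type*} [AddCommGroup A] [AddCommGroup B] [Finite B]
    [Finite K] (f : A →+ B) (k : K → A) (hk : ∀ a, f a = 0 → ∃ x, k x = a) : Finite A := by
  classical
  have hs : ∀ b : B, ∃ a : A, (∃ a', f a' = b) → f a = b := fun b => by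
    by_cases h : ∃ a', f a' = b
    · obtain ⟨a', ha'⟩ := h
      exact ⟨a', fun _ => ha'⟩
    · exact ⟨0, fun h' => (h h').elim⟩
  choose s hs using hs
  have hk' : ∀ a : A, ∃ x : K, k x = a - s (f a) := fun a => hk _ (by
    rw [map_sub, hs (f a) ⟨a, rfl⟩, sub_self])
  choose t ht using hk'
  refine Finite.of_injective (fun a => (f a, t a)) (fun a a' h => ?_)
  have h1 : f a = f a' := congrArg Prod.fst h
  have h2 : t a = t a' := congrArg Prod.snd h
  have h3 := ht a
  rw [h2, ht a', h1] at h3
  exact (sub_left_injective h3).symm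

/-! ### The cokernel of an equivariant map as a `G`-module -/

section cok

variable {G : Type*} [Group G] {A B : Type*} [AddCommGroup A] [DistribMulAction G A]
  [AddCommGroup B] [DistribMulAction G B]

/-- The cokernel of an equivariant map, as a `G`-module. -/
@[nolint unusedArguments]
def s56lf_Cok (i : A →+ B) (_hi : ∀ (g : G) (a : A), i (g • a) = g • i a) : Type _ :=
  B ⧸ i.range

variable (i : A →+ B) (hi : ∀ (g : G) (a : A), i (g • a) = g • i a)

instance s56lf_Cok.instAddCommGroup : AddCommGroup (s56lf_Cok i hi) :=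
  inferInstanceAs (AddCommGroup (B ⧸ i.range))

instance s56lf_Cok.instFinite [Finite B] : Finite (s56lf_Cok i hi) :=
  inferInstanceAs (Finite (B ⧸ i.range))

/-- The projection onto the cokernel. -/
def s56lf_cokMk : B →+ s56lf_Cok i hi := QuotientAddGroup.mk' i.range

theorem s56lf_cokMk_surjective : Function.Surjective (s56lf_cokMk i hi) :=
  QuotientAddGroup.mk'_surjective _

theorem s56lf_cokMk_eq_zero_iff (b : B) : s56lf_cokMk i hi b = 0 ↔ ∃ a : A, i a = b := by
  show (QuotientAddGroup.mk' i.range b : B ⧸ i.range) = 0 ↔ _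
  rw [QuotientAddGroup.mk'_apply, QuotientAddGroup.eq_zero_iff]
  rfl

/-- The action of `g` on the cokernel. -/
def s56lf_cokSmul (g : G) : s56lf_Cok i hi →+ s56lf_Cok i hi :=
  QuotientAddGroup.map i.range i.range (DistribSMul.toAddMonoidHom B g) (by
    rintro _ ⟨a, rfl⟩
    exact ⟨g • a, hi g a⟩)

theorem s56lf_cokSmul_mk (g : G) (b : B) :
    s56lf_cokSmul i hi g (s56lf_cokMk i hi b) = s56lf_cokMk i hi (g • b) := rfl

instance s56lf_Cok.instAction : DistribMulAction G (s56lf_Cok i hi) where
  smul g x := s56lf_cokSmul i hi g x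
  one_smul x := by
    obtain ⟨b, rfl⟩ := s56lf_cokMk_surjective i hi x
    show s56lf_cokSmul i hi 1 (s56lf_cokMk i hi b) = _
    rw [s56lf_cokSmul_mk, one_smul]
  mul_smul g h x := by
    obtain ⟨b, rfl⟩ := s56lf_cokMk_surjective i hi x
    show s56lf_cokSmul i hi (g * h) (s56lf_cokMk i hi b) =
      s56lf_cokSmul i hi g (s56lf_cokSmul i hi h (s56lf_cokMk i hi b))
    rw [s56lf_cokSmul_mk, s56lf_cokSmul_mk, s56lf_cokSmul_mk, mul_smul]
  smul_zero g := map_zero (s56lf_cokSmul i hi g)
  smul_add g x y := map_add (s56lf_cokSmul i hi g) x y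

theorem s56lf_smul_cokMk (g : G) (b : B) :
    g • s56lf_cokMk i hi b = s56lf_cokMk i hi (g • b) := rfl

/-- The short exact sequence `0 → A → B → Cok → 0`. -/
def s56lf_ses (hinj : Function.Injective i) : LvSES G A B (s56lf_Cok i hi) where
  i := i
  π := s56lf_cokMk i hi
  i_equiv := hi
  π_equiv := fun _ _ => rfl
  i_inj := hinj
  π_surj := s56lf_cokMk_surjective i hi
  exact := s56lf_cokMk_eq_zero_iff i hi

theorem s56lf_cok_tors (p : ℕ) (hB : ∀ b : B, p • b = 0) (x : s56lf_Cok i hi) : p • x = 0 := by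
  obtain ⟨b, rfl⟩ := s56lf_cokMk_surjective i hi x
  rw [← map_nsmul, hB, map_zero]

theorem s56lf_cok_triv (W : Subgroup G) (hB : ∀ w ∈ W, ∀ b : B, w • b = b) (w : G) (hw : w ∈ W)
    (x : s56lf_Cok i hi) : w • x = x := by
  obtain ⟨b, rfl⟩ := s56lf_cokMk_surjective i hi x
  rw [s56lf_smul_cokMk, hB w hw]

end cok

/-! ### The coinduced module of a module with trivial `W`-action -/

section coind

variable {G : Type*} [Group G] (L : LevelSys G) (W : Subgroup G) [hWn : W.Normal]
  (N : Type*) [AddCommGroup N] [DistribMulAction G N]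

omit hWn in
theorem s56lf_coind_tors (p : ℕ) (hN : ∀ n : N, p • n = 0) (φ : s56esh_Coind L W N) :
    p • φ = 0 :=
  s56esh_coind_ext fun x => by
    rw [AddSubgroup.coe_nsmul, Pi.smul_apply, hN]
    rfl

include hWn in
theorem s56lf_coind_triv (hN : ∀ w ∈ W, ∀ n : N, w • n = n) (w : G) (hw : w ∈ W)
    (φ : s56esh_Coind L W N) : w • φ = φ :=
  s56esh_coind_ext fun x => by
    rw [s56esh_smul_apply]
    have h1 : x * w * x⁻¹ ∈ W := hWn.conj_mem w hw x
    have e : x * w = ((⟨x * w * x⁻¹, h1⟩ : W) : G) * x := by simp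
    rw [e, s56esh_coind_equiv]
    exact hN _ h1 _

include hWn in
theorem s56lf_coind_const (hN : ∀ w ∈ W, ∀ n : N, w • n = n) (φ : s56esh_Coind L W N)
    {x y : G} (h : (x : G ⧸ W) = (y : G ⧸ W)) : (φ : G → N) x = (φ : G → N) y := by
  have h1 : x⁻¹ * y ∈ W := QuotientGroup.eq.1 h
  have h2 := s56lf_coind_triv L W N hN _ h1 φ
  have h3 := congrArg (fun ψ : s56esh_Coind L W N => (ψ : G → N) x) h2
  simp only [s56esh_smul_apply] at h3
  rw [← h3]
  group

include hWn in
theorem s56lf_coind_finite [Finite N] [Finite (G ⧸ W)] (hN : ∀ w ∈ W, ∀ n : N, w • n = n) :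
    Finite (s56esh_Coind L W N) := by
  refine Finite.of_injective (fun (φ : s56esh_Coind L W N) (c : G ⧸ W) => (φ : G → N) c.out)
    (fun φ ψ h => s56esh_coind_ext fun x => ?_)
  have h1 := congrFun h (x : G ⧸ W)
  simp only at h1
  rw [s56lf_coind_const L W N hN φ (QuotientGroup.out_eq' (x : G ⧸ W)).symm,
    s56lf_coind_const L W N hN ψ (QuotientGroup.out_eq' (x : G ⧸ W)).symm]
  exact h1

end coind

/-! ### The abstract finiteness theorem -/

section main

universe u

variable {G : Type u} [Group G] (L : LevelSys G) (W : Subgroup G) [hWn : W.Normal]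
  (hW : W ∈ L.levels) (p : ℕ)

/-- The hypothesis: finiteness of `lvH1`, `lvH2` of the subgroup `W` for the modules of the class
`𝒞_W` (finite, killed by `p`, trivial `W`-action). -/
def s56lf_BaseFin : Prop :=
  ∀ (N : Type u) [AddCommGroup N] [DistribMulAction G N] [Finite N],
    (∀ n : N, p • n = 0) → (∀ w ∈ W, ∀ n : N, w • n = n) →
    Finite (lvH1 (s56esh_LU L W) N) ∧ Finite (lvH2 (s56esh_LU L W) N)

variable {L W p}

omit hWn in
theorem s56lf_smooth_of_triv (hW : W ∈ L.levels) {N : Type*} [AddCommGroup N]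
    [DistribMulAction G N] (hN : ∀ w ∈ W, ∀ n : N, w • n = n) : L.IsSmooth N :=
  fun n => ⟨W, hW, fun w hw => hN w hw n⟩

include hWn hW in
/-- `lvH1 L N` is finite for every module of the class `𝒞_W`. -/
theorem s56lf_H1_finite (hbase : s56lf_BaseFin L W p)
    (N : Type u) [AddCommGroup N] [DistribMulAction G N] [Finite N]
    (hp : ∀ n : N, p • n = 0) (hN : ∀ w ∈ W, ∀ n : N, w • n = n) : Finite (lvH1 L N) := by
  have hsm : L.IsSmooth N := s56lf_smooth_of_triv hW hN
  have hfq : Finite (G ⧸ W) := L.finite_quotient hW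
  have hI : Finite (s56esh_Coind L W N) := s56lf_coind_finite L W N hN
  have hIsm : L.IsSmooth (s56esh_Coind L W N) := s56esh_coind_smooth L W N
  have hU : ∃ V ∈ L.levels, V ≤ W := ⟨W, hW, le_rfl⟩
  let E := s56lf_ses (s56esh_iota L W N hsm) (s56esh_iota_equivariant hsm)
    (fun a b h => by
      have := congrArg (fun ψ : s56esh_Coind L W N => (ψ : G → N) 1) h
      simpa [s56esh_iota_apply] using this)
  have hfin1 : Finite (lvH1 (s56esh_LU L W) N) := (hbase N hp hN).1
  have hfinI : Finite (lvH1 L (s56esh_Coind L W N)) :=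
    Finite.of_injective _ (s56esh_H1_bijective hU (s56esh_smooth_res hsm)).1
  exact s56lf_finite_of_ker (E.mi L).H1 (fun c => E.δ0 L hIsm c)
    (fun x hx => (E.exact_H1A L hIsm x).1 hx)

include hWn hW in
/-- `lvH2 L N` is finite for every module of the class `𝒞_W`. -/
theorem s56lf_H2_finite (hbase : s56lf_BaseFin L W p)
    (N : Type u) [AddCommGroup N] [DistribMulAction G N] [Finite N]
    (hp : ∀ n : N, p • n = 0) (hN : ∀ w ∈ W, ∀ n : N, w • n = n) : Finite (lvH2 L N) := by
  have hsm : L.IsSmooth N := s56lf_smooth_of_triv hW hN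
  have hfq : Finite (G ⧸ W) := L.finite_quotient hW
  have hI : Finite (s56esh_Coind L W N) := s56lf_coind_finite L W N hN
  have hIsm : L.IsSmooth (s56esh_Coind L W N) := s56esh_coind_smooth L W N
  have hU : ∃ V ∈ L.levels, V ≤ W := ⟨W, hW, le_rfl⟩
  let E := s56lf_ses (s56esh_iota L W N hsm) (s56esh_iota_equivariant hsm)
    (fun a b h => by
      have := congrArg (fun ψ : s56esh_Coind L W N => (ψ : G → N) 1) h
      simpa [s56esh_iota_apply] using this)
  have hfin2 : Finite (lvH2 (s56esh_LU L W) N) := (hbase N hp hN).2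
  have hfinI : Finite (lvH2 L (s56esh_Coind L W N)) :=
    Finite.of_injective _ (s56esh_H2_bijective hU (s56esh_smooth_res hsm)).1
  have hQ1 : Finite (lvH1 L (s56lf_Cok (s56esh_iota L W N hsm) (s56esh_iota_equivariant hsm))) :=
    s56lf_H1_finite hW hbase _
      (s56lf_cok_tors _ _ p (s56lf_coind_tors L W N p hp))
      (fun w hw x => s56lf_cok_triv _ _ W (fun w hw φ => s56lf_coind_triv L W N hN w hw φ) w hw x)
  exact s56lf_finite_of_ker (E.mi L).H2 (fun c => E.δ1 L hIsm c)
    (fun y hy => (E.exact_H2A L hIsm y).1 hy)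

end main

end Fermat.Agent.S56
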