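import Fermat.Agent.S56.GW.LEC.Seams
import Fermat.Agent.S56.GW.LEC.Fin.Abs

/-!
# [GW-LEC] / [LEC-FIN] (prefix `s56lf_`): finiteness of `lvH1`, `lvH2` over `G_q`

From the base cases `s56l_BaseH1_stmt`, `s56l_BaseH2_stmt` (applied with `U := W`, a normal level
fixing the coefficients and `μ_p`) and the abstract theorem of `Fin/Abs.lean`.
-/

set_option autoImplicit false

namespace Fermat.Agent.S56

open Fermat.Agent.S55 ExtCitation

/-- `μ_p` is a smooth `G_q`-module. -/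
theorem s56lf_mu_smooth (p : ℕ) (q : Nat.Primes) : (tl_levelsLoc q).IsSmooth ↥(s56l_mu p q) := by
  intro z
  obtain ⟨W, hW, hfix⟩ := tl_isSmooth_locUnits q (z : tl_locUnits q)
  exact ⟨W, hW, fun w hw => Subtype.ext (hfix w hw)⟩

theorem s56lf_mu_finite (p : ℕ) [Fact p.Prime] (q : Nat.Primes) : Finite ↥(s56l_mu p q) :=
  Nat.finite_of_card_ne_zero (by
    rw [s56l_mu_card]
    exact (Fact.out : p.Prime).ne_zero)

/-- A normal level fixing a finite smooth module and `μ_p` pointwise. -/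
theorem s56lf_exists_level (p : ℕ) [Fact p.Prime] (q : Nat.Primes) (N : Type*) [AddCommGroup N]
    [DistribMulAction (primeLocalGaloisGroup q) N] [Finite N]
    (hsm : (tl_levelsLoc q).IsSmooth N) :
    ∃ W ∈ (tl_levelsLoc q).levels, W.Normal ∧ (∀ w ∈ W, ∀ n : N, w • n = n) ∧
      ∀ w ∈ W, ∀ ζ : ↥(s56l_mu p q), w • ζ = ζ := by
  have := s56lf_mu_finite p q
  obtain ⟨U₀, hU₀⟩ := (tl_levelsLoc q).nonempty
  obtain ⟨U₁, hU₁, -, -, h1⟩ :=
    LevelSys.IsSmooth.exists_level (tl_levelsLoc q) hsm (Set.finite_univ (α := N)) hU₀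
  obtain ⟨W, hW, hWU₁, hWn, h2⟩ :=
    LevelSys.IsSmooth.exists_level (tl_levelsLoc q) (s56lf_mu_smooth p q)
      (Set.finite_univ (α := ↥(s56l_mu p q))) hU₁
  exact ⟨W, hW, hWn, fun w hw n => h1 w (hWU₁ hw) n (Set.mem_univ n),
    fun w hw ζ => h2 w hw ζ (Set.mem_univ ζ)⟩

/-- The hypotheses of the base case at `U := W`. -/
theorem s56lf_baseHyp (p : ℕ) [Fact p.Prime] (q : Nat.Primes)
    (W : Subgroup (primeLocalGaloisGroup q)) (hWn : W.Normal) (hW : W ∈ (tl_levelsLoc q).levels)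
    (hμ : ∀ w ∈ W, ∀ ζ : ↥(s56l_mu p q), w • ζ = ζ) : s56l_BaseHyp p q W W where
  normal := hWn
  level := by first | exact hW | exact ⟨W, hW, le_rfl⟩
  le := le_rfl
  index := by
    rw [Subgroup.subgroupOf_self, Subgroup.index_top]
    exact (Fact.out : p.Prime).one_lt.ne' ∘ Nat.dvd_one.1
  mu := hμ

/-- The hypotheses on the coefficients at `U := W`, for a `G_q`-module with trivial `W`-action. -/
theorem s56lf_coefHyp (p : ℕ) {q : Nat.Primes} (W : Subgroup (primeLocalGaloisGroup q))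
    (N : Type) [AddCommGroup N] [DistribMulAction (primeLocalGaloisGroup q) N] [Finite N]
    (hp : ∀ n : N, p • n = 0) (hN : ∀ w ∈ W, ∀ n : N, w • n = n) : s56l_CoefHyp p W W N where
  finite := inferInstance
  tors := hp
  triv := fun u hu n => hN (u : primeLocalGaloisGroup q) hu n

/-- **[LEC-FIN]**, `p ≠ 2` form. -/
theorem s56lf_fin (h1 : s56l_BaseH1_stmt) (h2 : s56l_BaseH2_stmt) (p : ℕ) [Fact p.Prime]
    (hp2 : p ≠ 2) (q : Nat.Primes) (N : Type) [AddCommGroup N]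
    [DistribMulAction (primeLocalGaloisGroup q) N] [Finite N]
    (hp : ∀ n : N, p • n = 0) (hsm : (tl_levelsLoc q).IsSmooth N) :
    Finite (lvH1 (tl_levelsLoc q) N) ∧ Finite (lvH2 (tl_levelsLoc q) N) := by
  obtain ⟨W, hW, hWn, hN, hμ⟩ := s56lf_exists_level p q N hsm
  have hbase : s56lf_BaseFin (tl_levelsLoc q) W p := by
    intro N' _ _ _ hp' hN'
    have hyp := s56lf_baseHyp p q W hWn hW hμ
    have hc := s56lf_coefHyp p W N' hp' hN'
    exact ⟨(h1 p hp2 q W W hyp N' hc).1, (h2 p hp2 q W W hyp N' hc).1⟩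
  exact ⟨s56lf_H1_finite hW hbase N hp hN, s56lf_H2_finite hW hbase N hp hN⟩

/-- `s56l_Fin_stmt` with the hypothesis `p ≠ 2` (which `s56l_BaseH1_stmt`, `s56l_BaseH2_stmt`
carry). -/
def s56lf_FinOdd_stmt : Prop :=
  ∀ (p : ℕ) [Fact p.Prime], p ≠ 2 → ∀ (q : Nat.Primes) (N : Type) [AddCommGroup N]
    [DistribMulAction (primeLocalGaloisGroup q) N] [Finite N],
    (∀ n : N, p • n = 0) → (tl_levelsLoc q).IsSmooth N →
    Finite (lvH1 (tl_levelsLoc q) N) ∧ Finite (lvH2 (tl_levelsLoc q) N)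

/-- **[LEC-FIN]**: finiteness of `lvH1`, `lvH2` over `G_q` from the base cases. -/
theorem s56lf_main (h1 : s56l_BaseH1_stmt) (h2 : s56l_BaseH2_stmt) : s56lf_FinOdd_stmt :=
  fun p _ hp2 q N _ _ _ hp hsm => s56lf_fin h1 h2 p hp2 q N hp hsm

end Fermat.Agent.S56
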